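import Fermat.Agent.S55.Local.Spec
import Fermat.Agent.S55.Local.H904.LF
import Fermat.Agent.S55.H713.LocalIndex

/-!
# S55 layer L, piece T3 : the local norm index for cyclic extensions (helper713)

`cyclicNormIndex : CyclicNormIndexStatement`, i.e. `[Kˣ : N(Lˣ)] = [L : K]` for a cyclic
extension `L / K` of local fields, in the exact shape of `Local/Spec.lean`.

Proof: the integral closure of `A` in `L` is a Galois-stable valuation subring of `L` which is a
complete discrete valuation ring with finite residue field (LF0, LF1 on main), so
`Fermat.Agent.S55.H713.norm_index_eq_finrank` applies.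

Reusable: `intVS A F L : ValuationSubring L` (the ring of integers), `mem_intVS`,
`isDVR_intVS`, `isAdicComplete_intVS`, `finite_residueField_intVS`, `galStable_intVS`.
-/

set_option autoImplicit false
set_option linter.unusedSectionVars false
set_option linter.style.haveILetI false

namespace Fermat.Agent.S55.Local.H713

open Fermat.Agent.S55.Local IsLocalRing

section

variable (A F : Type) [CommRing A] [IsDomain A] [IsDiscreteValuationRing A]
  [IsAdicComplete (IsLocalRing.maximalIdeal A) A] [Finite (IsLocalRing.ResidueField A)]
  [Field F] [CharZero F] [Algebra A F] [IsFractionRing A F]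
  (L : Type) [Field L] [Algebra F L] [FiniteDimensional F L]

/-- The ring of integers of the local field `L`, as a valuation subring. -/
noncomputable def intVS : ValuationSubring L :=
  letI : Algebra A L := (toL A F L).toAlgebra
  { (integralClosure A L).toSubring with
    mem_or_inv_mem' := fun x => H904.intOrInv A F L x }

lemma mem_intVS (x : L) : x ∈ intVS A F L ↔ IsInt A F L x := Iff.rfl

/-- The integral closure and the valuation subring are the same ring. -/
noncomputable def intVSEquiv :
    letI : Algebra A L := (toL A F L).toAlgebra
    integralClosure A L ≃+* intVS A F L :=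
  letI : Algebra A L := (toL A F L).toAlgebra
  { toFun := fun x => ⟨x.1, x.2⟩
    invFun := fun x => ⟨x.1, x.2⟩
    left_inv := fun _ => rfl
    right_inv := fun _ => rfl
    map_mul' := fun _ _ => rfl
    map_add' := fun _ _ => rfl }

lemma isDVR_intVS : IsDiscreteValuationRing (intVS A F L) := by
  letI : Algebra A L := (toL A F L).toAlgebra
  haveI : IsScalarTower A F L := IsScalarTower.of_algebraMap_eq (fun _ => rfl)
  haveI := H904.lf0_isDVR A F L
  exact IsDiscreteValuationRing.RingEquivClass.isDiscreteValuationRing (intVSEquiv A F L)

lemma isAdicComplete_intVS :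
    IsAdicComplete (maximalIdeal (intVS A F L)) (intVS A F L) := by
  letI : Algebra A L := (toL A F L).toAlgebra
  haveI : IsScalarTower A F L := IsScalarTower.of_algebraMap_eq (fun _ => rfl)
  haveI := H904.lf0_isDVR A F L
  haveI := H904.lf0_isLocalRing A F L
  haveI := H904.lf0_isAdicComplete A F L
  letI : Algebra (integralClosure A L) (intVS A F L) := (intVSEquiv A F L).toRingHom.toAlgebra
  haveI : Module.Finite (integralClosure A L) (intVS A F L) :=
    Module.Finite.of_surjective (Algebra.linearMap (integralClosure A L) (intVS A F L))
      (intVSEquiv A F L).surjective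
  haveI : IsLocalHom (algebraMap (integralClosure A L) (intVS A F L)) :=
    ⟨fun a ha => by
      have : IsUnit ((intVSEquiv A F L).symm (intVSEquiv A F L a)) :=
        IsUnit.map (intVSEquiv A F L).symm ha
      simpa using this⟩
  exact IsLocalRing.isAdicComplete_of_module_finite (𝒪 := integralClosure A L)

lemma finite_residueField_intVS : Finite (ResidueField (intVS A F L)) := by
  letI : Algebra A L := (toL A F L).toAlgebra
  haveI : IsScalarTower A F L := IsScalarTower.of_algebraMap_eq (fun _ => rfl)
  haveI := H904.lf0_isLocalRing A F L
  haveI := H904.lf0_finite_residueField A F L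
  exact Finite.of_equiv _ (IsLocalRing.ResidueField.mapEquiv (intVSEquiv A F L)).toEquiv

variable (K : Type) [Field K] [Algebra F K] [Algebra K L] [IsScalarTower F K L]

lemma galStable_intVS : Fermat.Agent.S55.H713.GalStable K (intVS A F L) := by
  intro g x hx
  rw [mem_intVS] at hx ⊢
  refine H904.IsInt.map (g : L →+* L) (fun a => ?_) hx
  rw [toL_apply, IsScalarTower.algebraMap_apply F K L]
  exact g.commutes _

end

/-- (T3) the local norm index theorem for cyclic extensions, in the shape of `Local/Spec.lean`. -/
theorem cyclicNormIndex : CyclicNormIndexStatement := by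
  intro A F _ _ _ _ _ _ _ _ _ K _ _ _ L _ _ _ _ _ _ hcyc
  haveI : FiniteDimensional F L := FiniteDimensional.trans F K L
  haveI := isDVR_intVS A F L
  haveI := isAdicComplete_intVS A F L
  haveI := finite_residueField_intVS A F L
  haveI := hcyc
  exact Fermat.Agent.S55.H713.norm_index_eq_finrank (F := K) (E := L) (O := intVS A F L)
    (galStable_intVS A F L K)

end Fermat.Agent.S55.Local.H713
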