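import Fermat.Agent.S55.Local.H713.T3
import Fermat.Agent.S55.Local.H717.CyclicIndex
import Fermat.Agent.S55.L.Adapter

/-!
# S55 layer L : consequences of the cyclic norm index theorem (helper713)

* `cyclicH2Card : CyclicH2CardStatement` (T3'), via helper717's glue `cyclicH2Card_of`;
* `normIndexCyclicSpec : L.NormIndexCyclicSpec` (L-B2') and
  `h2CardCyclicSpec : L.H2CardCyclicSpec` (L-B2), via helper54's adapters.

All unconditional.
-/

set_option autoImplicit false

namespace Fermat.Agent.S55.Local.H713

/-- (T3') `|H²(Gal(L/K), Lˣ)| = [L : K]` for `L / K` cyclic. -/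
theorem cyclicH2Card : Fermat.Agent.S55.Local.CyclicH2CardStatement :=
  Fermat.Agent.S55.Local.H717.cyclicH2Card_of cyclicNormIndex

/-- (L-B2') the cyclic norm index in the outer (`IsLocalFld`) shape. -/
theorem normIndexCyclicSpec : Fermat.Agent.S55.L.NormIndexCyclicSpec :=
  Fermat.Agent.S55.L.normIndexCyclic_of_local cyclicNormIndex

/-- (L-B2) the cyclic `H²` count in the outer (`IsLocalFld`) shape. -/
theorem h2CardCyclicSpec : Fermat.Agent.S55.L.H2CardCyclicSpec :=
  Fermat.Agent.S55.L.h2CardCyclic_of_local cyclicH2Card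

end Fermat.Agent.S55.Local.H713
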